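import Mathlib
import Fermat.Agent.H29.ESB.Interfaces
import Fermat.Agent.H29.ResidueConst
import Fermat.Agent.H23.PlaceBasic

/-!
# ESB-4: base change of divisors (`DivisorBCStatement`)

`divisorBCStatement (h2c : PlaceExtUniqueStatement) (h3 : RationalPlaceStatement) :
  DivisorBCStatement`.
-/

set_option autoImplicit false

open AlgebraicCurve IntermediateField

namespace Fermat.Agent.H65

open Fermat.Agent.H29

/-- An unramified extension map of places is injective. -/
theorem esb_ext_injective {k K Fk FK : Type} [Field k] [Field K] [Field Fk] [Field FK]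
    [Algebra k Fk] [Algebra K FK] (E : ConstExt k K Fk FK)
    (ext : Place k Fk → Place K FK) (hext : IsPlaceExt E ext) : Function.Injective ext := by
  intro v v' hvv'
  apply Fermat.Agent.H23.place_ext_of_ord
  intro f hf
  rw [← hext v' f, ← hvv', hext v f]
  exact hf

/-- **ESB-4**. -/
theorem divisorBCStatement (h2c : PlaceExtUniqueStatement) (h3 : RationalPlaceStatement) :
    DivisorBCStatement := by
  intro k K Fk FK _ _ _ _ _ _ _ _ _ _ E ext hext
  have hinj := esb_ext_injective E ext hext
  refine ⟨?_, ?_⟩
  · -- degrees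
    have : FiniteDimensional k⟮E.x⟯ Fk := E.x_fin
    have : FiniteDimensional K⟮E.bc E.x⟯ FK := E.bcx_fin
    have : Algebra.IsAlgebraic k⟮E.x⟯ Fk := Algebra.IsAlgebraic.of_finite _ _
    have : Algebra.IsAlgebraic K⟮E.bc E.x⟯ FK := Algebra.IsAlgebraic.of_finite _ _
    have hdeg1 : ∀ v : Place k Fk, v.deg = 1 := fun v =>
      Fermat.Agent.H29.place_deg_eq_one (y := E.x) v
    have hdeg2 : ∀ w : Place K FK, w.deg = 1 := fun w =>
      Fermat.Agent.H29.place_deg_eq_one (y := E.bc E.x) w
    have hhom : (Divisor.degree (K := K) (F := FK)).comp (divisorBC ext) =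
        Divisor.degree (K := k) (F := Fk) := by
      apply Finsupp.addHom_ext
      intro v n
      simp only [AddMonoidHom.comp_apply, divisorBC, Finsupp.mapDomain.addMonoidHom_apply,
        Finsupp.mapDomain_single, Divisor.degree_single, hdeg1, hdeg2]
    intro D
    exact DFunLike.congr_fun hhom D
  · -- divisors of functions
    intro f hf D hD w
    by_cases hw : w ∈ Set.range ext
    · obtain ⟨v, rfl⟩ := hw
      simp only [divisorBC, Finsupp.mapDomain.addMonoidHom_apply]
      rw [Finsupp.mapDomain_apply hinj, hD v, hext v f]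
    · simp only [divisorBC, Finsupp.mapDomain.addMonoidHom_apply]
      rw [Finsupp.mapDomain_of_notMem_range _ _ hw]
      by_contra hne
      obtain ⟨v, hv⟩ := h3 k K Fk FK E w ⟨f, hf, fun h => hne h.symm⟩
      have := h2c k K Fk FK E v w (ext v) hv (hext v)
      exact hw ⟨v, this.symm⟩

end Fermat.Agent.H65
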