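/-
S14 / block T, row T-S (helper65): assembly of `SingularStatement` from the interface statements
of block T.
-/
import Fermat.Agent.H53.S14T.Interfaces
import Fermat.Agent.H13.S14Final

set_option autoImplicit false

open scoped NumberField nonZeroDivisors
open Polynomial

namespace Fermat.Agent.H65

open Fermat.Agent.H53

/-- Roots of unity have valuation one. -/
theorem val_eq_one_of_pow_eq_one {F : Type*} [Field F] (A : ValuationSubring F) {x : F} {n : ℕ}
    (hn : n ≠ 0) (hx : x ^ n = 1) : A.valuation x = 1 := by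
  have h : (A.valuation x) ^ n = 1 := by rw [← map_pow, hx, map_one]
  exact (pow_eq_one_iff_of_nonneg zero_le hn).mp h

/-- **T-S**: assembly of `SingularStatement`. -/
theorem singularStatement_of_parts (hX1 : PlaceOverPrimeStatement) (hX2 : UnitFractionStatement)
    (hM : MoveStatement) (hE1 : SumValuationStatement) (hE0 : SpanStatement)
    (hP2 : InertiaCorrectionStatement) (hG4 : FixedFieldStatement) : SingularStatement := by
  intro p _ _ K _ _ _ ι ζ hζ α A₀ hα hA₀ hout hatp P hPprime hPbot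
  obtain ⟨A, ℓ, hℓ, hAℓ, _, hnon⟩ := hX1 K ι P hPprime hPbot
  have hpprime : p.Prime := Fact.out
  have : NeZero p := ⟨hpprime.ne_zero⟩
  have hιinj : Function.Injective ι := ι.toRingHom.injective
  have hια : ι α ≠ 0 := fun h => hα (hιinj (by rw [h, map_zero]))
  have hA₀ne : A₀ ≠ 0 := by
    intro h
    rw [h, zero_pow hpprime.ne_zero] at hA₀
    exact hια hA₀.symm
  by_cases hcase : ∃ c : K, c ≠ 0 ∧ A.valuation A₀ = A.valuation (ι c)
  · -- CASE 1
    obtain ⟨c, hc, hv⟩ := hcase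
    have hvc : A.valuation (ι c) ≠ 0 := by
      rw [Valuation.ne_zero_iff]
      exact fun h => hc (hιinj (by rw [h, map_zero]))
    have hk : A.valuation (ι (α * (c⁻¹) ^ p)) = 1 := by
      rw [map_mul, map_pow, map_inv₀, map_mul, map_pow, map_inv₀, ← hA₀, map_pow, hv, inv_pow,
        mul_inv_cancel₀ (pow_ne_zero _ hvc)]
    obtain ⟨x, y, hx, hy, hxy⟩ := hX2 K ι P A ℓ hℓ hAℓ hnon _ hk
    exact ⟨c⁻¹, inv_ne_zero hc, x, y, hx, hy, hxy⟩
  · -- CASE 2
    exfalso
    have hcase' : ∀ c : K, c ≠ 0 → A.valuation A₀ ≠ A.valuation (ι c) := by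
      intro c hc h
      exact hcase ⟨c, hc, h⟩
    have hnotin : ¬ ∃ k : K, ι k = A₀ := by
      rintro ⟨k, hk⟩
      have hk0 : k ≠ 0 := by
        rintro rfl
        exact hA₀ne (by rw [← hk, map_zero])
      exact hcase' k hk0 (by rw [hk])
    have hιζ : IsPrimitiveRoot (ι ζ) p := hζ.map_of_injective hιinj
    obtain ⟨τ, hτζ, hτA⟩ : ∃ τ : GQ, τ (ι ζ) = ι ζ ∧ τ A₀ ≠ A₀ := by
      by_contra hcon
      exact hnotin (hG4 p K ι ζ hζ A₀ (fun τ hτ => by
        by_contra h
        exact hcon ⟨τ, hτ, h⟩))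
    have hτK : ∀ k : K, τ (ι k) = ι k := fun k =>
      Fermat.Agent.H13.fixes_range_of_fixes_zeta p K ι ζ hζ τ hτζ k
    -- the root of unity `ζ' = τ A₀ / A₀`
    obtain ⟨ζ', hζ'⟩ : ∃ ζ' : AlgebraicClosure ℚ, ζ' = τ A₀ / A₀ := ⟨_, rfl⟩
    have hτA₀ : τ A₀ = ζ' * A₀ := by rw [hζ', div_mul_cancel₀ _ hA₀ne]
    have hζ'p : ζ' ^ p = 1 := by
      rw [hζ', div_pow, ← map_pow, hA₀, hτK, div_self hια]
    obtain ⟨j, -, hjeq⟩ := hιζ.eq_pow_of_pow_eq_one hζ'p
    have hζ'K : ζ' = ι (ζ ^ j) := by rw [map_pow, hjeq]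
    have hτζ' : τ ζ' = ζ' := by rw [hζ'K, hτK]
    have hvζ' : A.valuation ζ' = 1 := val_eq_one_of_pow_eq_one A hpprime.ne_zero hζ'p
    have hζ'ne0 : ζ' ≠ 0 := by
      intro h
      rw [h, zero_pow hpprime.ne_zero] at hζ'p
      exact zero_ne_one hζ'p
    -- the field `L = ι K (A₀)`
    set L : IntermediateField ℚ (AlgebraicClosure ℚ) :=
      IntermediateField.adjoin ℚ (Set.range ι ∪ {A₀}) with hL
    have hιL : ∀ k, ι k ∈ L := fun k =>
      IntermediateField.subset_adjoin _ _ (Or.inl ⟨k, rfl⟩)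
    have hA₀L : A₀ ∈ L := IntermediateField.subset_adjoin _ _ (Or.inr rfl)
    have hτA₀L : τ A₀ ∈ L := by
      rw [hτA₀, hζ'K]
      exact L.mul_mem (hιL _) hA₀L
    -- the polynomial `X ^ p - α`
    have hmonic : (X ^ p - C α : Polynomial K).Monic := monic_X_pow_sub_C α hpprime.ne_zero
    have hdeg : (X ^ p - C α : Polynomial K).natDegree = p := natDegree_X_pow_sub_C
    have heval : Polynomial.eval₂ (ι : K →+* AlgebraicClosure ℚ) A₀ (X ^ p - C α) = 0 := by
      rw [eval₂_sub, eval₂_X_pow, eval₂_C]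
      exact sub_eq_zero.mpr hA₀
    have hv1 : A.valuation (A₀ ^ p) = A.valuation (ι α) := by rw [hA₀]
    have hτinv : τ⁻¹ A₀ = ζ'⁻¹ * A₀ := by
      apply τ.injective
      rw [← AlgEquiv.mul_apply, mul_inv_cancel, AlgEquiv.one_apply, map_mul, map_inv₀, hτζ',
        hτA₀, inv_mul_cancel_left₀ hζ'ne0]
    have hv2 : A.valuation ((τ⁻¹ A₀) ^ p) = A.valuation (ι α) := by
      rw [hτinv, mul_pow, inv_pow, hζ'p, inv_one, one_mul, hA₀]
    have hcase2 : ∀ c : K, c ≠ 0 → A.valuation (τ⁻¹ A₀) ≠ A.valuation (ι c) := by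
      intro c hc
      rw [hτinv, map_mul, map_inv₀, hvζ', inv_one, one_mul]
      exact hcase' c hc
    obtain ⟨σ, hσD, hσK, hσA⟩ := hM p hpprime K ι A₀ (X ^ p - C α) hmonic hdeg heval α hα A ℓ hℓ
      hAℓ τ hτK hτA₀L hv1 hcase' hv2 hcase2
    by_cases hℓp : ℓ = p
    · subst hℓp
      apply hτA
      rw [← hσA]
      exact hatp A hAℓ σ hσD (hσK ζ)
    · have hres : ∀ y ∈ L, y ∈ A → σ y - y ∈ A.nonunits := by
        intro y hyL hyA
        obtain ⟨c, rfl⟩ := hE0 p K ι A₀ (X ^ p - C α) hmonic hdeg heval y hyL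
        have h2 := (hE1 p hpprime K ι A₀ α hα A hv1 hcase' c).2 hyA
        have hsum : σ (∑ i ∈ Finset.range p, ι (c i) * A₀ ^ i) -
            ∑ i ∈ Finset.range p, ι (c i) * A₀ ^ i =
            ∑ i ∈ Finset.range p, (ι (c i) * A₀ ^ i) * (ζ' ^ i - 1) := by
          rw [map_sum, ← Finset.sum_sub_distrib]
          refine Finset.sum_congr rfl fun i _ => ?_
          rw [map_mul, map_pow, hσK, hσA, hτA₀, mul_pow]
          ring
        rw [hsum, ValuationSubring.mem_nonunits_iff]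
        refine Valuation.map_sum_lt _ one_ne_zero fun i hi => ?_
        by_cases hi0 : i = 0
        · subst hi0
          simp
        · have h3 := h2 i hi hi0
          rw [ValuationSubring.mem_nonunits_iff] at h3
          have h4 : A.valuation (ζ' ^ i - 1) ≤ 1 := by
            refine (A.valuation).map_sub_le (x := ζ' ^ i) (y := 1) ?_ ?_
            · rw [map_pow, hvζ', one_pow]
            · rw [map_one]
          rw [map_mul]
          calc A.valuation (ι (c i) * A₀ ^ i) * A.valuation (ζ' ^ i - 1)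
              ≤ A.valuation (ι (c i) * A₀ ^ i) * 1 := mul_le_mul' le_rfl h4
            _ = A.valuation (ι (c i) * A₀ ^ i) := mul_one _
            _ < 1 := h3
      obtain ⟨ρ, hρL, -, hρI⟩ := hP2 L A ℓ hℓ hAℓ σ hσD hres
      have h5 := (hout ℓ hℓ hℓp A hAℓ _ hρI).2
      have h6 : (ρ⁻¹ * σ) A₀ = τ A₀ := by
        rw [AlgEquiv.mul_apply, hσA]
        apply ρ.injective
        rw [← AlgEquiv.mul_apply, mul_inv_cancel, AlgEquiv.one_apply, hρL _ hτA₀L]
      exact hτA (h6 ▸ h5)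

end Fermat.Agent.H65
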