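/-
S14 / C4c-B3 (helper65): number of integral ideals of norm `≤ x` in a fixed ideal class, with a
power-saving error term, deduced from
* (B1) a generic lattice point count with rate (hypothesis `hB1`, in the exact shape of
  `latticeCount_rate`, specialised to the mixed space of `K`),
* (B2) thinness of the frontier of `normLeOne K` (hypothesis `hB2`),
* Mathlib's asymptotic `NumberField.Ideal.tendsto_norm_le_and_mk_eq_div_atTop`.
-/
import Mathlib
import Fermat.Agent.H68.ThinSet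

set_option autoImplicit false

open Filter Topology NumberField NumberField.mixedEmbedding
  NumberField.mixedEmbedding.fundamentalCone NumberField.InfinitePlace NumberField.Units Ideal
  Submodule
open scoped nonZeroDivisors Real

namespace Fermat.Agent.H65

open scoped Classical

variable (K : Type*) [Field K] [NumberField K]

/-- The constant of Mathlib's `tendsto_norm_le_and_mk_eq_div_atTop`. -/
noncomputable def classKappa : ℝ :=
  (2 ^ nrRealPlaces K * (2 * π) ^ nrComplexPlaces K * regulator K) /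
    (torsionOrder K * Real.sqrt |discr K|)

/-- The number of nonzero integral ideals of norm `≤ s` in the class `C`. -/
noncomputable def classCount (C : ClassGroup (𝓞 K)) (s : ℝ) : ℕ :=
  Nat.card {I : (Ideal (𝓞 K))⁰ // (absNorm (I : Ideal (𝓞 K)) : ℝ) ≤ s ∧ ClassGroup.mk0 I = C}

/-- The number of points of the ideal lattice of `J` in the fundamental cone of norm `≤ c`. -/
noncomputable def coneCount (J : (Ideal (𝓞 K))⁰) (c : ℝ) : ℕ :=
  Nat.card ({x | x ∈ fundamentalCone K ∧ mixedEmbedding.norm x ≤ c} ∩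
    (idealLattice K (FractionalIdeal.mk0 K J) : Set (mixedSpace K)) : Set (mixedSpace K))

variable {K}

/-- Ideals of class `C` correspond to principal ideals divisible by `J` when `[J] = C⁻¹`
(same proof as the corresponding private lemma of Mathlib). -/
theorem classCount_eq_card_dvd {C : ClassGroup (𝓞 K)} {J : (Ideal (𝓞 K))⁰}
    (hJ : ClassGroup.mk0 J = C⁻¹) (s : ℝ) :
    classCount K C s
      = Nat.card {I : (Ideal (𝓞 K))⁰ // (J : Ideal (𝓞 K)) ∣ I ∧ IsPrincipal (I : Ideal (𝓞 K)) ∧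
        (absNorm (I : Ideal (𝓞 K)) : ℝ) ≤ s * absNorm (J : Ideal (𝓞 K))} := by
  unfold classCount
  simp_rw [← nonZeroDivisors_dvd_iff_dvd_coe]
  refine Nat.card_congr ?_
  refine ((Equiv.dvd J).subtypeEquiv fun I ↦ ?_).trans
    (Equiv.subtypeSubtypeEquivSubtypeInter (fun I : (Ideal (𝓞 K))⁰ ↦ J ∣ I) _)
  rw [← ClassGroup.mk0_eq_one_iff (SetLike.coe_mem _)]
  simp_rw [Equiv.dvd_apply, Submonoid.coe_mul, ← Submonoid.mul_def, _root_.map_mul, hJ,
    inv_mul_eq_one, Nat.cast_mul, mul_comm s, eq_comm, and_comm, and_congr_left_iff]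
  exact fun _ ↦
    (mul_le_mul_iff_of_pos_left (Nat.cast_pos.mpr (absNorm_pos_of_nonZeroDivisors J))).symm

theorem coneCount_eq (J : (Ideal (𝓞 K))⁰) (c : ℝ) :
    coneCount K J c =
      Nat.card {a : idealSet K J // mixedEmbedding.norm (a : mixedSpace K) ≤ c} := by
  unfold coneCount
  refine Nat.card_congr ?_
  refine Equiv.ofBijective
    (fun x => ⟨⟨x.1, ⟨x.2.1.1, x.2.2⟩⟩, x.2.1.2⟩) ⟨?_, ?_⟩
  · intro x y h
    have h' := congrArg (fun a : {a : idealSet K J //
      mixedEmbedding.norm (a : mixedSpace K) ≤ c} => ((a : idealSet K J) : mixedSpace K)) h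
    exact Subtype.ext h'
  · rintro ⟨⟨x, hx⟩, hc⟩
    exact ⟨⟨x, ⟨hx.1, hc⟩, hx.2⟩, rfl⟩

/-- The basic identity between the two counting functions. -/
theorem classCount_mul_torsionOrder {C : ClassGroup (𝓞 K)} {J : (Ideal (𝓞 K))⁰}
    (hJ : ClassGroup.mk0 J = C⁻¹) (s : ℝ) :
    classCount K C s * torsionOrder K = coneCount K J (s * absNorm (J : Ideal (𝓞 K))) := by
  rw [classCount_eq_card_dvd hJ, coneCount_eq, card_isPrincipal_dvd_norm_le]

theorem cone_set_eq_normLeOne :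
    {x : mixedSpace K | x ∈ fundamentalCone K ∧ mixedEmbedding.norm x ≤ 1} = normLeOne K := by
  ext; simp

/-- Mathlib's asymptotic, transported to the cone count. -/
theorem tendsto_coneCount_div {C : ClassGroup (𝓞 K)} {J : (Ideal (𝓞 K))⁰}
    (hJ : ClassGroup.mk0 J = C⁻¹) :
    Tendsto (fun c : ℝ => (coneCount K J c : ℝ) / c) atTop
      (𝓝 (classKappa K * torsionOrder K / absNorm (J : Ideal (𝓞 K)))) := by
  have hm : (0 : ℝ) < absNorm (J : Ideal (𝓞 K)) :=
    Nat.cast_pos.mpr (absNorm_pos_of_nonZeroDivisors J)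
  have h1 : Tendsto (fun c : ℝ => c / (absNorm (J : Ideal (𝓞 K)) : ℝ)) atTop atTop :=
    tendsto_id.atTop_div_const hm
  have h2 := (NumberField.Ideal.tendsto_norm_le_and_mk_eq_div_atTop K C).comp h1
  have h3 := h2.mul_const ((torsionOrder K : ℝ) / absNorm (J : Ideal (𝓞 K)))
  have hκ : classKappa K * torsionOrder K / absNorm (J : Ideal (𝓞 K)) =
      (2 ^ nrRealPlaces K * (2 * π) ^ nrComplexPlaces K * regulator K) /
        (torsionOrder K * Real.sqrt |discr K|) *
        ((torsionOrder K : ℝ) / absNorm (J : Ideal (𝓞 K))) := by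
    unfold classKappa
    ring
  rw [hκ]
  refine h3.congr' ?_
  filter_upwards [eventually_gt_atTop 0] with c hc
  have hid := classCount_mul_torsionOrder hJ (c / (absNorm (J : Ideal (𝓞 K)) : ℝ))
  rw [div_mul_cancel₀ _ hm.ne'] at hid
  have hid' : (coneCount K J c : ℝ) =
      (classCount K C (c / (absNorm (J : Ideal (𝓞 K)) : ℝ)) : ℝ) * torsionOrder K := by
    rw [← hid]; push_cast; ring
  show (classCount K C (c / (absNorm (J : Ideal (𝓞 K)) : ℝ)) : ℝ) /
      (c / (absNorm (J : Ideal (𝓞 K)) : ℝ)) * ((torsionOrder K : ℝ) / absNorm (J : Ideal (𝓞 K)))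
      = (coneCount K J c : ℝ) / c
  rw [hid']
  generalize (classCount K C (c / (absNorm (J : Ideal (𝓞 K)) : ℝ)) : ℝ) = a
  field_simp

/-- **C4c-B3, one class**: from the generic count with rate (B1) and the thin frontier (B2). -/
theorem classCount_rate_class
    (hB1 : ∀ (L : Submodule ℤ (mixedSpace K)) [DiscreteTopology L] [IsZLattice ℝ L]
      {X : Set (mixedSpace K)} {F : mixedSpace K → ℝ} {κ : ℝ}
      (_ : ∀ ⦃x⦄ ⦃r : ℝ⦄, x ∈ X → 0 < r → r • x ∈ X)
      (_ : ∀ x ⦃r : ℝ⦄, 0 ≤ r → F (r • x) = r ^ Module.finrank ℝ (mixedSpace K) * F x)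
      (_ : Bornology.IsBounded {x | x ∈ X ∧ F x ≤ 1})
      (_ : Fermat.Agent.H68.IsThin (Module.finrank ℝ (mixedSpace K) - 1)
        (frontier {x | x ∈ X ∧ F x ≤ 1}))
      (_ : Tendsto (fun c : ℝ =>
        (Nat.card ({x | x ∈ X ∧ F x ≤ c} ∩ L : Set (mixedSpace K)) : ℝ) / c) atTop (𝓝 κ)),
      ∃ B : ℝ, ∀ c : ℝ, 1 ≤ c →
        |(Nat.card ({x | x ∈ X ∧ F x ≤ c} ∩ L : Set (mixedSpace K)) : ℝ) - κ * c| ≤
          B * c ^ (1 - 1 / (Module.finrank ℝ (mixedSpace K) : ℝ)))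
    (hB2 : Fermat.Agent.H68.IsThin (Module.finrank ℚ K - 1) (frontier (normLeOne K)))
    (C : ClassGroup (𝓞 K)) :
    ∃ B : ℝ, 0 ≤ B ∧ ∀ x : ℝ, 1 ≤ x →
      |(classCount K C x : ℝ) - classKappa K * x| ≤
        B * x ^ (1 - 1 / (Module.finrank ℚ K : ℝ)) := by
  obtain ⟨J, hJ⟩ := ClassGroup.mk0_surjective C⁻¹
  have hm1 : (1 : ℝ) ≤ absNorm (J : Ideal (𝓞 K)) := by
    exact_mod_cast Nat.one_le_iff_ne_zero.mpr (absNorm_ne_zero_of_nonZeroDivisors J)
  have hm : (0 : ℝ) < absNorm (J : Ideal (𝓞 K)) := lt_of_lt_of_le one_pos hm1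
  have hw : (0 : ℝ) < torsionOrder K := Nat.cast_pos.mpr (torsionOrder_pos K)
  have hfin : Module.finrank ℝ (mixedSpace K) = Module.finrank ℚ K := mixedEmbedding.finrank K
  obtain ⟨B, hB⟩ := hB1 (idealLattice K (FractionalIdeal.mk0 K J))
    (X := fundamentalCone K) (F := fun x => mixedEmbedding.norm x)
    (κ := classKappa K * torsionOrder K / absNorm (J : Ideal (𝓞 K)))
    (fun x r hx hr => smul_mem_of_mem hx hr.ne')
    (fun x r hr => by
      simp only [mixedEmbedding.norm_smul, abs_of_nonneg hr, hfin])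
    (by rw [cone_set_eq_normLeOne]; exact isBounded_normLeOne K)
    (by rw [cone_set_eq_normLeOne, hfin]; exact hB2)
    (tendsto_coneCount_div hJ)
  rw [hfin] at hB
  set e : ℝ := 1 - 1 / (Module.finrank ℚ K : ℝ) with he
  refine ⟨|B| * (absNorm (J : Ideal (𝓞 K)) : ℝ) ^ e / torsionOrder K, by positivity,
    fun x hx => ?_⟩
  have hx0 : (0 : ℝ) ≤ x := le_trans zero_le_one hx
  have hc1 : (1 : ℝ) ≤ x * absNorm (J : Ideal (𝓞 K)) := by nlinarith
  have hb := hB _ hc1
  have hid := classCount_mul_torsionOrder hJ x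
  have hid' : (Nat.card ({y | y ∈ fundamentalCone K ∧ mixedEmbedding.norm y ≤
      x * absNorm (J : Ideal (𝓞 K))} ∩
      (idealLattice K (FractionalIdeal.mk0 K J) : Set (mixedSpace K)) : Set (mixedSpace K)) : ℝ)
      = (classCount K C x : ℝ) * torsionOrder K := by
    rw [← Nat.cast_mul, hid]; rfl
  rw [hid'] at hb
  have hkey : (classCount K C x : ℝ) * torsionOrder K -
      classKappa K * torsionOrder K / absNorm (J : Ideal (𝓞 K)) *
        (x * absNorm (J : Ideal (𝓞 K))) =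
      ((classCount K C x : ℝ) - classKappa K * x) * torsionOrder K := by
    field_simp
  rw [hkey, abs_mul, abs_of_pos hw] at hb
  have hpow : (x * (absNorm (J : Ideal (𝓞 K)) : ℝ)) ^ e =
      x ^ e * (absNorm (J : Ideal (𝓞 K)) : ℝ) ^ e := Real.mul_rpow hx0 hm.le
  rw [hpow] at hb
  have hxe : (0 : ℝ) ≤ x ^ e := Real.rpow_nonneg hx0 _
  have hme : (0 : ℝ) ≤ (absNorm (J : Ideal (𝓞 K)) : ℝ) ^ e := Real.rpow_nonneg hm.le _
  have hb' : |(classCount K C x : ℝ) - classKappa K * x| * torsionOrder K ≤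
      |B| * (x ^ e * (absNorm (J : Ideal (𝓞 K)) : ℝ) ^ e) :=
    hb.trans (mul_le_mul_of_nonneg_right (le_abs_self B) (mul_nonneg hxe hme))
  rw [div_mul_eq_mul_div, le_div_iff₀ hw]
  calc |(classCount K C x : ℝ) - classKappa K * x| * torsionOrder K
      ≤ |B| * (x ^ e * (absNorm (J : Ideal (𝓞 K)) : ℝ) ^ e) := hb'
    _ = |B| * (absNorm (J : Ideal (𝓞 K)) : ℝ) ^ e * x ^ e := by ring

/-- **C4c-B3**: number of integral ideals of norm `≤ x` in a class, with error term, uniformly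
in the class; conditional on (B1) and (B2). -/
theorem classCount_rate_of
    (hB1 : ∀ (L : Submodule ℤ (mixedSpace K)) [DiscreteTopology L] [IsZLattice ℝ L]
      {X : Set (mixedSpace K)} {F : mixedSpace K → ℝ} {κ : ℝ}
      (_ : ∀ ⦃x⦄ ⦃r : ℝ⦄, x ∈ X → 0 < r → r • x ∈ X)
      (_ : ∀ x ⦃r : ℝ⦄, 0 ≤ r → F (r • x) = r ^ Module.finrank ℝ (mixedSpace K) * F x)
      (_ : Bornology.IsBounded {x | x ∈ X ∧ F x ≤ 1})
      (_ : Fermat.Agent.H68.IsThin (Module.finrank ℝ (mixedSpace K) - 1)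
        (frontier {x | x ∈ X ∧ F x ≤ 1}))
      (_ : Tendsto (fun c : ℝ =>
        (Nat.card ({x | x ∈ X ∧ F x ≤ c} ∩ L : Set (mixedSpace K)) : ℝ) / c) atTop (𝓝 κ)),
      ∃ B : ℝ, ∀ c : ℝ, 1 ≤ c →
        |(Nat.card ({x | x ∈ X ∧ F x ≤ c} ∩ L : Set (mixedSpace K)) : ℝ) - κ * c| ≤
          B * c ^ (1 - 1 / (Module.finrank ℝ (mixedSpace K) : ℝ)))
    (hB2 : Fermat.Agent.H68.IsThin (Module.finrank ℚ K - 1) (frontier (normLeOne K))) :
    ∃ B : ℝ, ∀ (C : ClassGroup (𝓞 K)) (x : ℝ), 1 ≤ x →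
      |(Nat.card {I : (Ideal (𝓞 K))⁰ //
          (absNorm (I : Ideal (𝓞 K)) : ℝ) ≤ x ∧ ClassGroup.mk0 I = C} : ℝ) -
        (2 ^ nrRealPlaces K * (2 * π) ^ nrComplexPlaces K * regulator K) /
          (torsionOrder K * Real.sqrt |discr K|) * x| ≤
        B * x ^ (1 - 1 / (Module.finrank ℚ K : ℝ)) := by
  classical
  choose B hB0 hB using fun C => classCount_rate_class hB1 hB2 C
  refine ⟨∑ C : ClassGroup (𝓞 K), B C, fun C x hx => ?_⟩
  have hx0 : (0 : ℝ) ≤ x := le_trans zero_le_one hx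
  refine (hB C x hx).trans ?_
  refine mul_le_mul_of_nonneg_right ?_ (Real.rpow_nonneg hx0 _)
  exact Finset.single_le_sum (fun C _ => hB0 C) (Finset.mem_univ C)

end Fermat.Agent.H65
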