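import Mathlib
import Fermat.Agent.H28.ES.Interface2

/-!
# ES-G3: the mod-`p` cyclotomic character of `G_ℚ`

`cycloCharStatement : Fermat.Agent.H28.CycloCharStatement`.

The character is `IsPrimitiveRoot.autToPow ℚ hζ` for a primitive `p`-th root of unity `ζ` of
`AlgebraicClosure ℚ`.
-/

set_option autoImplicit false
set_option linter.style.haveILetI false

namespace Fermat.Agent.H65

open Polynomial

section Valuation

variable {L : Type*} [Field L]

/-- A root of unity has valuation one. -/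
theorem cyclo_val_eq_one (A : ValuationSubring L) {x : L} {n : ℕ}
    (hn : n ≠ 0) (hx : x ^ n = 1) : A.valuation x = 1 := by
  have h : (A.valuation x) ^ n = 1 := by rw [← map_pow, hx, map_one]
  exact (pow_eq_one_iff_of_nonneg zero_le hn).mp h

/-- A root of unity lies in every valuation subring. -/
theorem cyclo_mem (A : ValuationSubring L) {x : L} {n : ℕ}
    (hn : n ≠ 0) (hx : x ^ n = 1) : x ∈ A := by
  rw [← A.valuation_le_one_iff, cyclo_val_eq_one A hn hx]

/-- If `ℓ` is a nonunit of `A` and `p` is prime to `ℓ`, then `p` is nonzero in the residue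
field. -/
theorem cyclo_residue_natCast_ne_zero (A : ValuationSubring L) {p ℓ : ℕ}
    (hcop : Nat.Coprime p ℓ) (hℓ : (ℓ : L) ∈ A.nonunits) :
    ((p : ℕ) : IsLocalRing.ResidueField A) ≠ 0 := by
  intro hp0
  have hℓ0 : ((ℓ : ℕ) : IsLocalRing.ResidueField A) = 0 := by
    rw [ValuationSubring.mem_nonunits_iff_exists_mem_maximalIdeal] at hℓ
    obtain ⟨ha, hmem⟩ := hℓ
    have hcast : (⟨(ℓ : L), ha⟩ : A) = ((ℓ : ℕ) : A) := Subtype.ext (by simp)
    rw [hcast] at hmem
    have := (IsLocalRing.residue_eq_zero_iff _).mpr hmem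
    simpa using this
  have hbez : ((p : ℤ) * Nat.gcdA p ℓ + (ℓ : ℤ) * Nat.gcdB p ℓ) = 1 := by
    have := Nat.gcd_eq_gcd_ab p ℓ
    rw [hcop.gcd_eq_one] at this
    exact_mod_cast this.symm
  have h1 : (1 : IsLocalRing.ResidueField A) = 0 := by
    have := congrArg (fun z : ℤ => (z : IsLocalRing.ResidueField A)) hbez
    simp only [Int.cast_add, Int.cast_mul, Int.cast_natCast, Int.cast_one] at this
    rw [← this, hp0, hℓ0]; ring
  exact one_ne_zero h1

/-- Key lemma: two powers of a primitive `p`-th root of unity with the same residue at a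
valuation subring over `ℓ ≠ p` are equal. -/
theorem cyclo_pow_eq_of_residue_eq (A : ValuationSubring L) {p ℓ : ℕ} (hp : p.Prime)
    (hℓp : Nat.Coprime p ℓ) (hℓ : (ℓ : L) ∈ A.nonunits) {ζ : L} (hζ : ζ ^ p = 1)
    (a b : ℕ)
    (h : IsLocalRing.residue A ⟨ζ ^ a, cyclo_mem A hp.ne_zero
          (by rw [← pow_mul, mul_comm, pow_mul, hζ, one_pow])⟩ =
         IsLocalRing.residue A ⟨ζ ^ b, cyclo_mem A hp.ne_zero
          (by rw [← pow_mul, mul_comm, pow_mul, hζ, one_pow])⟩) :
    ζ ^ a = ζ ^ b := by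
  have hζA : ζ ∈ A := cyclo_mem A hp.ne_zero hζ
  set z : A := ⟨ζ, hζA⟩ with hz
  have hzp : z ^ p = 1 := Subtype.ext (by simpa using hζ)
  have ha : (⟨ζ ^ a, cyclo_mem A hp.ne_zero
      (by rw [← pow_mul, mul_comm, pow_mul, hζ, one_pow])⟩ : A) = z ^ a := Subtype.ext rfl
  have hb : (⟨ζ ^ b, cyclo_mem A hp.ne_zero
      (by rw [← pow_mul, mul_comm, pow_mul, hζ, one_pow])⟩ : A) = z ^ b := Subtype.ext rfl
  rw [ha, hb, map_pow, map_pow] at h
  set φ := IsLocalRing.residue A with hφ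
  -- ξ = z ^ a * z ^ ((p - 1) * b)
  set ξ : A := z ^ a * z ^ ((p - 1) * b) with hξ
  have hp1 : 1 ≤ p := hp.one_lt.le
  have hzpb : z ^ b * z ^ ((p - 1) * b) = 1 := by
    rw [← pow_add]
    have : b + (p - 1) * b = p * b := by
      have : p = (p - 1) + 1 := by omega
      conv_rhs => rw [this]
      ring
    rw [this, pow_mul, hzp, one_pow]
  have hξp : ξ ^ p = 1 := by
    rw [hξ, mul_pow, ← pow_mul, ← pow_mul, mul_comm a p, mul_comm ((p - 1) * b) p, pow_mul,
      pow_mul z p, hzp, one_pow, one_pow, one_mul]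
  have hφξ : φ ξ = 1 := by
    rw [hξ, map_mul, map_pow, map_pow, h, ← map_pow, ← map_pow, ← map_mul, hzpb, map_one]
  have hξ1 : ξ = 1 := by
    by_contra hne
    have hsum : ∑ i ∈ Finset.range p, ξ ^ i = 0 := by
      have := mul_geom_sum ξ p
      rw [hξp, sub_self] at this
      rcases mul_eq_zero.mp this with h0 | h0
      · exact absurd (sub_eq_zero.mp h0) hne
      · exact h0
    have := congrArg φ hsum
    rw [map_sum, map_zero] at this
    simp only [map_pow, hφξ, one_pow, Finset.sum_const, Finset.card_range, nsmul_eq_mul,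
      mul_one] at this
    exact cyclo_residue_natCast_ne_zero A hℓp hℓ (by simpa using this)
  have hfin : z ^ a = z ^ b := by
    have h1 : z ^ a * z ^ ((p - 1) * b) = z ^ b * z ^ ((p - 1) * b) := by
      rw [hzpb]; exact hξ1
    have hunit : IsUnit (z ^ ((p - 1) * b)) :=
      IsUnit.of_mul_eq_one (z ^ b) (by rw [mul_comm]; exact hzpb)
    exact hunit.mul_left_injective h1
  have := congrArg (Subtype.val) hfin
  simpa using this

end Valuation

section Main

open Fermat.Agent.H28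

/-- `AlgebraicClosure ℚ` has a primitive `p`-th root of unity. -/
theorem cyclo_exists_primitiveRoot (p : ℕ) (hp : p.Prime) :
    ∃ ζ : AlgebraicClosure ℚ, IsPrimitiveRoot ζ p := by
  haveI : NeZero (p : AlgebraicClosure ℚ) := ⟨by exact_mod_cast hp.ne_zero⟩
  have hdeg : (cyclotomic p (AlgebraicClosure ℚ)).degree ≠ 0 := by
    rw [degree_cyclotomic]
    exact_mod_cast (Nat.totient_pos.mpr hp.pos).ne'
  obtain ⟨ζ, hζ⟩ := IsAlgClosed.exists_root (cyclotomic p (AlgebraicClosure ℚ)) hdeg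
  exact ⟨ζ, isRoot_cyclotomic_iff.mp hζ⟩

variable {p : ℕ} [NeZero p] {ζ : AlgebraicClosure ℚ}

/-- The value of the character is determined by the action on `ζ`. -/
theorem cyclo_autToPow_eq_of_apply (hζ : IsPrimitiveRoot ζ p) (σ : GQ) (m : ℕ)
    (h : σ ζ = ζ ^ m) : ((hζ.autToPow ℚ σ : (ZMod p)ˣ) : ZMod p) = (m : ZMod p) := by
  have hspec := hζ.autToPow_spec ℚ σ
  rw [h] at hspec
  have hζ0 : ζ ≠ 0 := hζ.ne_zero (NeZero.ne p)
  have hmod : ((hζ.autToPow ℚ σ : (ZMod p)ˣ) : ZMod p).val ≡ m [MOD p] := by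
    set a := ((hζ.autToPow ℚ σ : (ZMod p)ˣ) : ZMod p).val with ha
    rcases le_total a m with hle | hle
    · have h1 : ζ ^ (m - a) = 1 := by
        have : ζ ^ a * ζ ^ (m - a) = ζ ^ a * 1 := by
          rw [← pow_add, Nat.add_sub_cancel' hle, mul_one, hspec]
        exact mul_left_cancel₀ (pow_ne_zero _ hζ0) this
      exact (Nat.modEq_iff_dvd' hle).mpr ((hζ.pow_eq_one_iff_dvd _).mp h1)
    · have h1 : ζ ^ (a - m) = 1 := by
        have : ζ ^ m * ζ ^ (a - m) = ζ ^ m * 1 := by
          rw [← pow_add, Nat.add_sub_cancel' hle, mul_one, hspec]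
        exact mul_left_cancel₀ (pow_ne_zero _ hζ0) this
      exact ((Nat.modEq_iff_dvd' hle).mpr ((hζ.pow_eq_one_iff_dvd _).mp h1)).symm
  have := (ZMod.natCast_eq_natCast_iff _ _ _).mpr hmod
  rwa [ZMod.natCast_zmod_val] at this

/-- Unit version with `m = 1`. -/
theorem cyclo_autToPow_eq_one_of_apply (hζ : IsPrimitiveRoot ζ p) (σ : GQ)
    (h : σ ζ = ζ) : hζ.autToPow ℚ σ = 1 := by
  apply Units.ext
  have := cyclo_autToPow_eq_of_apply hζ σ 1 (by rw [pow_one]; exact h)
  simpa using this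

/-- The action of the decomposition group on the residue of `ζ ^ a`. -/
theorem cyclo_smul_residue (A : ValuationSubring (AlgebraicClosure ℚ)) (hp : p.Prime)
    (hζ : IsPrimitiveRoot ζ p) (σ : GQ) (hσ : σ ∈ A.decompositionSubgroup ℚ) :
    (⟨σ, hσ⟩ : A.decompositionSubgroup ℚ) • IsLocalRing.residue A
        ⟨ζ ^ 1, cyclo_mem A hp.ne_zero
          (by rw [← pow_mul, mul_comm, pow_mul, hζ.pow_eq_one, one_pow])⟩ =
      IsLocalRing.residue A ⟨ζ ^ ((hζ.autToPow ℚ σ : (ZMod p)ˣ) : ZMod p).val,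
        cyclo_mem A hp.ne_zero
          (by rw [← pow_mul, mul_comm, pow_mul, hζ.pow_eq_one, one_pow])⟩ := by
  rw [← IsLocalRing.ResidueField.residue_smul]
  congr 1
  apply Subtype.ext
  change σ (ζ ^ 1) = ζ ^ ((hζ.autToPow ℚ σ : (ZMod p)ˣ) : ZMod p).val
  rw [pow_one]
  exact (hζ.autToPow_spec ℚ σ).symm

/-- **ES-G3**: the mod-`p` cyclotomic character. -/
theorem cycloCharStatement : CycloCharStatement := by
  intro p hp
  haveI : NeZero p := ⟨hp.ne_zero⟩
  haveI : Fact p.Prime := ⟨hp⟩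
  obtain ⟨ζ, hζ⟩ := cyclo_exists_primitiveRoot p hp
  have hζp : ζ ^ p = 1 := hζ.pow_eq_one
  refine ⟨hζ.autToPow ℚ, ?_, ?_, ?_, ?_⟩
  · -- finite level
    refine ⟨IntermediateField.adjoin ℚ {ζ}, ?_, ?_⟩
    · exact IntermediateField.adjoin.finiteDimensional
        ((hζ.isIntegral hp.pos).tower_top (A := ℚ))
    · intro σ hσ
      exact cyclo_autToPow_eq_one_of_apply hζ σ
        (hσ ζ (IntermediateField.mem_adjoin_simple_self ℚ ζ))
  · -- Frobenius
    intro ℓ hℓ hne A hA σ hfrob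
    obtain ⟨hσ, hfr⟩ := hfrob
    have hcop : Nat.Coprime p ℓ := (Nat.coprime_primes hp hℓ).mpr (Ne.symm hne)
    have h1 := cyclo_smul_residue A hp hζ σ hσ
    have h2 := hfr (IsLocalRing.residue A
        ⟨ζ ^ 1, cyclo_mem A hp.ne_zero
          (by rw [← pow_mul, mul_comm, pow_mul, hζ.pow_eq_one, one_pow])⟩)
    rw [h1] at h2
    have h3 : IsLocalRing.residue A ⟨ζ ^ 1, cyclo_mem A hp.ne_zero
          (by rw [← pow_mul, mul_comm, pow_mul, hζ.pow_eq_one, one_pow])⟩ ^ ℓ =
        IsLocalRing.residue A ⟨ζ ^ ℓ, cyclo_mem A hp.ne_zero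
          (by rw [← pow_mul, mul_comm, pow_mul, hζ.pow_eq_one, one_pow])⟩ := by
      rw [← map_pow]
      congr 1
      apply Subtype.ext
      simp
    rw [h3] at h2
    have h4 := cyclo_pow_eq_of_residue_eq A hp hcop hA hζp _ _ h2
    exact cyclo_autToPow_eq_of_apply hζ σ ℓ (by rw [← hζ.autToPow_spec ℚ σ]; exact h4)
  · -- inertia
    intro ℓ hℓ hne A hA σ hσ
    have hcop : Nat.Coprime p ℓ := (Nat.coprime_primes hp hℓ).mpr (Ne.symm hne)
    rw [ValuationSubring.inertiaSubgroupIn, Subgroup.mem_map] at hσ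
    obtain ⟨g, hg, rfl⟩ := hσ
    have hgact : ∀ x : IsLocalRing.ResidueField A, g • x = x := by
      intro x
      have := MonoidHom.mem_ker.mp hg
      have h' := congrArg (fun f : RingAut (IsLocalRing.ResidueField A) => f x) this
      simpa using h'
    have h1 := cyclo_smul_residue A hp hζ g.1 g.2
    have h2 := hgact (IsLocalRing.residue A
        ⟨ζ ^ 1, cyclo_mem A hp.ne_zero
          (by rw [← pow_mul, mul_comm, pow_mul, hζ.pow_eq_one, one_pow])⟩)
    have hg' : (⟨g.1, g.2⟩ : A.decompositionSubgroup ℚ) = g := Subtype.ext rfl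
    rw [hg'] at h1
    rw [h1] at h2
    have h4 := cyclo_pow_eq_of_residue_eq A hp hcop hA hζp _ _ h2
    apply cyclo_autToPow_eq_one_of_apply hζ
    change g.1 ζ = ζ
    rw [← hζ.autToPow_spec ℚ g.1, h4, pow_one]
  · -- complex conjugation
    intro _
    haveI halg : Algebra.IsAlgebraic ℚ (AlgebraicClosure ℚ) := AlgebraicClosure.isAlgebraic ℚ
    haveI hcl : IsAlgClosure ℚ (AlgebraicClosure ℚ) := ⟨inferInstance, inferInstance⟩
    haveI hnorm : Normal ℚ (AlgebraicClosure ℚ) := IsAlgClosure.normal ℚ (AlgebraicClosure ℚ)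
    let ι : AlgebraicClosure ℚ →ₐ[ℚ] ℂ := IsAlgClosed.lift
    letI : Algebra (AlgebraicClosure ℚ) ℂ := ι.toRingHom.toAlgebra
    haveI : IsScalarTower ℚ (AlgebraicClosure ℚ) ℂ :=
      IsScalarTower.of_algebraMap_eq (fun x => (ι.commutes x).symm)
    let conjQ : ℂ ≃ₐ[ℚ] ℂ := Complex.conjAe.restrictScalars ℚ
    let c : GQ := conjQ.restrictNormal (AlgebraicClosure ℚ)
    have hc : ∀ x : AlgebraicClosure ℚ, ι (c x) = (starRingEnd ℂ) (ι x) := by
      intro x
      have := AlgEquiv.restrictNormal_commutes conjQ (AlgebraicClosure ℚ) x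
      exact this
    have hinj : Function.Injective ι := ι.toRingHom.injective
    refine ⟨c, ?_, ?_⟩
    · apply AlgEquiv.ext
      intro x
      apply hinj
      change ι (c (c x)) = ι x
      rw [hc, hc, Complex.conj_conj]
    · apply Units.ext
      have hcz : c ζ = ζ ^ (p - 1) := by
        apply hinj
        rw [hc, map_pow]
        have hιp : (ι ζ) ^ p = 1 := by rw [← map_pow, hζp, map_one]
        have hnorm : ‖ι ζ‖ = 1 := Complex.norm_eq_one_of_pow_eq_one hιp hp.ne_zero
        rw [← RCLike.inv_eq_conj hnorm]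
        have hne0 : ι ζ ≠ 0 := by
          intro h0
          rw [h0, zero_pow hp.ne_zero] at hιp
          exact zero_ne_one hιp
        have : (ι ζ) ^ (p - 1) * ι ζ = 1 := by
          rw [← pow_succ, Nat.sub_add_cancel hp.one_lt.le, hιp]
        exact (eq_inv_of_mul_eq_one_left this).symm
      have := cyclo_autToPow_eq_of_apply hζ c (p - 1) hcz
      rw [this, Units.val_neg, Units.val_one, Nat.cast_sub hp.one_lt.le]
      simp

end Main

end Fermat.Agent.H65
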