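import Mathlib
import Fermat.Agent.H6.S16UB.Interfaces
import Fermat.Agent.H1.S16L2.Interfaces

/-!
# S16, upper bound: arithmetic assembly (row UB-FIN of P-S16)

* `noUnitEight_of_modEight` : adapter from helper1's `NoUnitModEightStatement` to
  `NoUnitEightStatement`.
* `upperBound_of_noUnit` : `UpperBoundStatement` from the five `NoUnit` statements.
-/

set_option autoImplicit false

namespace Fermat.Agent.H65

open Fermat.Agent.H6.S16UB

/-- Adapter: helper1's statement (`Odd (a 0)`, `8 ∣ a n`, `False`) gives `NoUnitEightStatement`. -/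
theorem noUnitEight_of_modEight (h : Fermat.Agent.H1.S16L2.NoUnitModEightStatement) :
    NoUnitEightStatement := by
  intro p hp hC H a ha hdiv
  by_contra h2
  have hodd : Odd (a 0) := by
    rw [← Int.not_even_iff_odd]
    intro he
    exact h2 (even_iff_two_dvd.mp he)
  refine h p hp hC.2 hC.1 H a ha hodd ?_
  intro n hn
  have := hdiv n hn
  simpa using this

/-- A prime `ℓ` dividing `m` cannot divide `a 0` when `a 0` is coprime to `m`. -/
theorem not_dvd_of_isCoprime_of_dvd {a0 : ℤ} {m ℓ : ℕ} (hℓ : ℓ.Prime)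
    (hco : IsCoprime a0 (m : ℤ)) (hℓm : ℓ ∣ m) : ¬ (ℓ : ℤ) ∣ a0 := by
  intro hd
  have hm : (ℓ : ℤ) ∣ (m : ℤ) := Int.natCast_dvd_natCast.mpr hℓm
  have hu : IsUnit (ℓ : ℤ) := hco.isUnit_of_dvd' hd hm
  have h1 : ℓ = 1 := by
    have := Int.isUnit_iff.mp hu
    rcases this with h | h
    · exact_mod_cast h
    · exfalso
      have : (0 : ℤ) ≤ (ℓ : ℤ) := Int.natCast_nonneg ℓ
      omega
  exact hℓ.one_lt.ne' h1

/-- Helper: from `ℓ ^ r ∣ m` and `m ∣ a n` get the divisibility hypothesis of `NoUnitStatement`. -/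
theorem pow_dvd_coeff_of_dvd {a : ℕ → ℤ} {m ℓ r : ℕ} (hm : ∀ n, 1 ≤ n → (m : ℤ) ∣ a n)
    (hℓ : ℓ ^ r ∣ m) : ∀ n, 1 ≤ n → ((ℓ ^ r : ℕ) : ℤ) ∣ a n := fun n hn =>
  (Int.natCast_dvd_natCast.mpr hℓ).trans (hm n hn)

/-- `gcd (p - 1) 12` only depends on `(p - 1) mod 12`. -/
theorem gcd_pred_twelve (p : ℕ) :
    Nat.gcd (p - 1) 12 = Nat.gcd ((p - 1) % 12) 12 := by
  rw [Nat.gcd_comm (p - 1) 12, Nat.gcd_rec 12 (p - 1)]

/-- **UB-FIN**: the assembled upper bound from the five `NoUnit` statements. -/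
theorem upperBound_of_noUnit (h5 : NoUnitGeFiveStatement) (h9 : NoUnitNineStatement)
    (h3 : NoUnitThreeStatement) (h4 : NoUnitFourStatement) (h8 : NoUnitEightStatement) :
    UpperBoundStatement := by
  intro p hp hp5 H a m ha hm hco
  -- residues of `p`
  have h2p : ¬ 2 ∣ p := fun h => by
    have := (Nat.prime_dvd_prime_iff_eq Nat.prime_two hp).mp h; omega
  have h3p : ¬ 3 ∣ p := fun h => by
    have := (Nat.prime_dvd_prime_iff_eq Nat.prime_three hp).mp h; omega
  -- the key facts about `m`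
  have key : ∀ (ℓ r : ℕ) (C : ℕ → Prop), ℓ.Prime → 1 ≤ r → NoUnitStatement ℓ r C → C p →
      ¬ ℓ ^ r ∣ m := by
    intro ℓ r C hℓ hr hst hC hdvd
    have hℓm : ℓ ∣ m := (dvd_pow_self ℓ (by omega)).trans hdvd
    exact not_dvd_of_isCoprime_of_dvd hℓ hco hℓm
      (hst p hp hC H a ha (pow_dvd_coeff_of_dvd hm hdvd))
  rw [Nat.dvd_iff_prime_pow_dvd_dvd]
  intro ℓ k hℓ hk
  rcases Nat.eq_zero_or_pos k with rfl | hkpos
  · simp
  have hℓm : ℓ ∣ m := (dvd_pow_self ℓ (by omega)).trans hk
  -- primes ≥ 5 are excluded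
  by_cases hℓ5 : 5 ≤ ℓ
  · exact absurd (by simpa using hℓm) (key ℓ 1 _ hℓ le_rfl (h5 ℓ hℓ hℓ5) trivial)
  have hℓ23 : ℓ = 2 ∨ ℓ = 3 := by
    have h2 := hℓ.two_le
    have hlt : ℓ < 5 := by omega
    interval_cases ℓ
    · left; rfl
    · right; rfl
    · exact absurd hℓ (by decide)
  have hmod12 : p % 12 = 1 ∨ p % 12 = 5 ∨ p % 12 = 7 ∨ p % 12 = 11 := by omega
  rcases hℓ23 with rfl | rfl
  · -- ℓ = 2
    have hk3 : k < 3 := by
      by_contra hge
      have h8m : 2 ^ 3 ∣ m := (pow_dvd_pow 2 (by omega)).trans hk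
      have hp4 : p % 4 = 1 ∨ p % 4 = 3 := by omega
      rcases hp4 with hp4 | hp4
      · exact key 2 2 _ Nat.prime_two (by norm_num) h4 hp4
          ((pow_dvd_pow 2 (by norm_num)).trans h8m)
      · exact key 2 3 _ Nat.prime_two (by norm_num) h8 ⟨hp4, hp5⟩ h8m
    have hk2 : k = 2 → p % 4 = 3 := by
      intro hk2
      subst hk2
      by_contra hne
      have hp4 : p % 4 = 1 := by omega
      exact key 2 2 _ Nat.prime_two (by norm_num) h4 hp4 hk
    rw [gcd_pred_twelve p]
    rcases hmod12 with h | h | h | h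
    · have : (p - 1) % 12 = 0 := by omega
      rw [this]
      have hk1 : k = 1 := by
        by_contra hne
        have : k = 2 := by omega
        have := hk2 this
        omega
      subst hk1
      decide
    · have : (p - 1) % 12 = 4 := by omega
      rw [this]
      have hk1 : k = 1 := by
        by_contra hne
        have : k = 2 := by omega
        have := hk2 this
        omega
      subst hk1
      decide
    · have : (p - 1) % 12 = 6 := by omega
      rw [this]
      have : k = 1 ∨ k = 2 := by omega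
      rcases this with rfl | rfl <;> decide
    · have : (p - 1) % 12 = 10 := by omega
      rw [this]
      have : k = 1 ∨ k = 2 := by omega
      rcases this with rfl | rfl <;> decide
  · -- ℓ = 3
    have hk2 : k < 2 := by
      by_contra hge
      have h9m : 3 ^ 2 ∣ m := (pow_dvd_pow 3 (by omega)).trans hk
      have hp3 : p ≠ 3 := by omega
      exact key 3 2 _ Nat.prime_three (by norm_num) h9 hp3 h9m
    have hk1 : k = 1 := by omega
    subst hk1
    have hp3 : p % 3 = 2 := by
      by_contra hne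
      have hp31 : p % 3 = 1 := by omega
      exact key 3 1 _ Nat.prime_three le_rfl h3 hp31 hk
    rw [gcd_pred_twelve p]
    rcases hmod12 with h | h | h | h
    · omega
    · have : (p - 1) % 12 = 4 := by omega
      rw [this]; decide
    · omega
    · have : (p - 1) % 12 = 10 := by omega
      rw [this]; decide

end Fermat.Agent.H65
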