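import Mathlib
import Fermat.Agent.H21.CocDefs
import Fermat.Prelude.Def_CuspForm_HeckeAlgebra
import Fermat.Prelude.Thm_Subgroup_IsArithmetic_exists_nat_mem_strictPeriods_conj

/-!
# HF-X1: exponential decay of `f ∣[k] γ` at `i∞` for a cusp form `f` on `Γ₀(N)`
-/

set_option autoImplicit false

namespace Fermat.Agent.H65

open UpperHalfPlane CongruenceSubgroup Matrix.SpecialLinearGroup
open scoped MatrixGroups ModularForm Manifold
open Fermat.Agent.H21

theorem exp_decay_slash (N : ℕ) [NeZero N] (k : ℤ) (f : CuspForm (Gamma0 N) k) (γ : SL(2, ℤ)) :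
    ∃ a : ℝ, 0 < a ∧ ∃ C B : ℝ, ∀ τ : ℍ, B ≤ τ.im →
      ‖((⇑f) ∣[k] (mapGL ℝ γ)) τ‖ ≤ C * Real.exp (-a * τ.im) := by
  obtain ⟨M, hM, hper⟩ := Subgroup.IsArithmetic.exists_nat_mem_strictPeriods_conj
    ((Gamma0 N : Subgroup SL(2, ℤ)) : Subgroup (GL (Fin 2) ℝ))
  have hper' := hper γ⁻¹
  rw [map_inv] at hper'
  have hM' : (0 : ℝ) < (M : ℝ) := by exact_mod_cast hM
  have hO := CuspFormClass.exp_decay_atImInfty (CuspForm.translate f (mapGL ℝ γ)) hM' hper'
  refine ⟨2 * Real.pi / M, by positivity, ?_⟩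
  rw [Asymptotics.isBigO_iff] at hO
  obtain ⟨C, hC⟩ := hO
  rw [Filter.Eventually, UpperHalfPlane.atImInfty_mem] at hC
  obtain ⟨B, hB⟩ := hC
  refine ⟨C, B, fun τ hτ => ?_⟩
  have := hB τ hτ
  simp only [Set.mem_ofPred_eq] at this
  rw [Real.norm_eq_abs, Real.abs_exp] at this
  have e : -(2 * Real.pi / M) * τ.im = -2 * Real.pi * τ.im / M := by ring
  rw [e]
  exact this

end Fermat.Agent.H65
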